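/-
Cluster E' (Mazur), S12 side, seat TW (helper22): definitions (`quadTwist`, `UnipAt`).
-/
import Mathlib
import Fermat.Agent.E.S12.Defs

set_option autoImplicit false

open WeierstrassCurve WeierstrassCurve.Affine WeierstrassCurve.Affine.Point

noncomputable section

namespace Fermat.Agent.ES12

/-- The quadratic twist by `d` of `y² = x³ + a₂ x² + a₄ x + a₆`. -/
def quadTwist (W : WeierstrassCurve ℚ) (d : ℚ) : WeierstrassCurve ℚ where
  a₁ := 0
  a₂ := d * W.a₂
  a₃ := 0
  a₄ := d ^ 2 * W.a₄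
  a₆ := d ^ 3 * W.a₆

/-- The inertia group at `A` acts unipotently on the `m`-torsion of `W` over `Q̄`. -/
def UnipAt (W : WeierstrassCurve ℚ) (A : ValuationSubring Qb) (m : ℕ) : Prop :=
  ∀ σ ∈ A.inertiaSubgroupIn ℚ, ∀ P : (W⁄Qb).Point, m • P = 0 →
    σ • (σ • P) - 2 • (σ • P) + P = 0

end Fermat.Agent.ES12
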