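/-
Cluster E' (Mazur), S12 side, seat TW (helper22), part 2: the twist map
`ψ : (quadTwist W d)(Q̄) → W(Q̄)`, `(x, y) ↦ (x / d, y / (d √d))`, an injective group
homomorphism with `σ ψ = χ_d(σ) ψ σ`.
-/
import Mathlib
import Fermat.Agent.E.S12.Twist.Defs
import Fermat.Agent.Lib.VarChange.Point

set_option autoImplicit false

open WeierstrassCurve WeierstrassCurve.Affine WeierstrassCurve.Affine.Point

noncomputable section

namespace Fermat.Agent.ES12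

open Fermat.Agent.VarChange

variable (W : WeierstrassCurve ℚ) (d : ℚ) {s : Qb}

theorem tw_sqrt_ne_zero (hd : d ≠ 0) (hs : s ^ 2 = algebraMap ℚ Qb d) : s ≠ 0 := by
  rintro rfl
  rw [zero_pow (by norm_num)] at hs
  exact hd ((map_eq_zero _).mp hs.symm)

/-- the change of variables `u = 1 / √d`. -/
def twVC (hd : d ≠ 0) (hs : s ^ 2 = algebraMap ℚ Qb d) : VariableChange Qb where
  u := (Units.mk0 s (tw_sqrt_ne_zero d hd hs))⁻¹
  r := 0
  s := 0
  t := 0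

theorem twVC_u (hd : d ≠ 0) (hs : s ^ 2 = algebraMap ℚ Qb d) :
    ((twVC d hd hs).u : Qb) = s⁻¹ := rfl

theorem twVC_u_inv (hd : d ≠ 0) (hs : s ^ 2 = algebraMap ℚ Qb d) :
    (((twVC d hd hs).u⁻¹ : Qbˣ) : Qb) = s := by
  simp [twVC]

variable {W}

/-- over `Q̄` the twist is a change of variables of `W`. -/
theorem tw_baseChange_eq (ha₁ : W.a₁ = 0) (ha₃ : W.a₃ = 0) (hd : d ≠ 0)
    (hs : s ^ 2 = algebraMap ℚ Qb d) :
    (Affine.baseChange (quadTwist W d) Qb : Affine Qb) =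
      twVC d hd hs • (Affine.baseChange W Qb : Affine Qb) := by
  change (quadTwist W d).map (algebraMap ℚ Qb) = twVC d hd hs • W.map (algebraMap ℚ Qb)
  have h4 : s ^ 4 = algebraMap ℚ Qb d ^ 2 := by rw [← hs]; ring
  have h6 : s ^ 6 = algebraMap ℚ Qb d ^ 3 := by rw [← hs]; ring
  ext
  · rw [variableChange_a₁]
    simp [quadTwist, twVC, ha₁]
  · rw [variableChange_a₂, twVC_u_inv]
    simp [quadTwist, twVC, ha₁, hs]
  · rw [variableChange_a₃]
    simp [quadTwist, twVC, ha₁, ha₃]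
  · rw [variableChange_a₄, twVC_u_inv]
    simp [quadTwist, twVC, ha₁, ha₃, h4]
  · rw [variableChange_a₆, twVC_u_inv]
    simp [quadTwist, twVC, ha₁, ha₃, h6]

/-- the twist map. -/
def twMap (ha₁ : W.a₁ = 0) (ha₃ : W.a₃ = 0) (hd : d ≠ 0) (hs : s ^ 2 = algebraMap ℚ Qb d) :
    ((quadTwist W d)⁄Qb).Point →+ (W⁄Qb).Point :=
  vcHom (twVC d hd hs) (tw_baseChange_eq d ha₁ ha₃ hd hs)

theorem twMap_injective (ha₁ : W.a₁ = 0) (ha₃ : W.a₃ = 0) (hd : d ≠ 0)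
    (hs : s ^ 2 = algebraMap ℚ Qb d) : Function.Injective (twMap d ha₁ ha₃ hd hs) :=
  vcHom_injective _ _

theorem twMap_some (ha₁ : W.a₁ = 0) (ha₃ : W.a₃ = 0) (hd : d ≠ 0)
    (hs : s ^ 2 = algebraMap ℚ Qb d) {x y : Qb} (h : ((quadTwist W d)⁄Qb).Nonsingular x y) :
    twMap d ha₁ ha₃ hd hs (.some x y h) =
      .some (vcX (twVC d hd hs) x) (vcY (twVC d hd hs) x y)
        (vc_nonsingular_of_eq (twVC d hd hs) (tw_baseChange_eq d ha₁ ha₃ hd hs) h) := rfl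

theorem tw_vcX (hd : d ≠ 0) (hs : s ^ 2 = algebraMap ℚ Qb d) (x : Qb) :
    vcX (twVC d hd hs) x = (s⁻¹) ^ 2 * x := by
  simp [vcX, twVC]

theorem tw_vcY (hd : d ≠ 0) (hs : s ^ 2 = algebraMap ℚ Qb d) (x y : Qb) :
    vcY (twVC d hd hs) x y = (s⁻¹) ^ 3 * y := by
  simp [vcY, twVC]

/-- Galois fixes the twist map if it fixes `√d`. -/
theorem smul_twMap_of_fixed (ha₁ : W.a₁ = 0) (ha₃ : W.a₃ = 0) (hd : d ≠ 0)
    (hs : s ^ 2 = algebraMap ℚ Qb d) {σ : GQ} (hσ : σ s = s)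
    (P : ((quadTwist W d)⁄Qb).Point) :
    σ • twMap d ha₁ ha₃ hd hs P = twMap d ha₁ ha₃ hd hs (σ • P) := by
  rcases P with _ | ⟨x, y, h⟩
  · rfl
  · rw [algEquiv_smul_def, algEquiv_smul_def, twMap_some, Point.map_some, Point.map_some,
      twMap_some]
    simp only [Point.some.injEq, tw_vcX, tw_vcY]
    constructor
    · show σ (s⁻¹ ^ 2 * x) = s⁻¹ ^ 2 * σ x
      rw [map_mul, map_pow, map_inv₀, hσ]
    · show σ (s⁻¹ ^ 3 * y) = s⁻¹ ^ 3 * σ y
      rw [map_mul, map_pow, map_inv₀, hσ]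

/-- Galois anticommutes with the twist map if it moves `√d`. -/
theorem smul_twMap_of_neg (ha₁ : W.a₁ = 0) (ha₃ : W.a₃ = 0) (hd : d ≠ 0)
    (hs : s ^ 2 = algebraMap ℚ Qb d) {σ : GQ} (hσ : σ s = -s)
    (P : ((quadTwist W d)⁄Qb).Point) :
    σ • twMap d ha₁ ha₃ hd hs P = -twMap d ha₁ ha₃ hd hs (σ • P) := by
  rcases P with _ | ⟨x, y, h⟩
  · rfl
  · rw [algEquiv_smul_def, algEquiv_smul_def, twMap_some, Point.map_some, Point.map_some,
      twMap_some, Point.neg_some]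
    simp only [Point.some.injEq, tw_vcX, tw_vcY]
    constructor
    · show σ (s⁻¹ ^ 2 * x) = s⁻¹ ^ 2 * σ x
      rw [map_mul, map_pow, map_inv₀, hσ]
      ring
    · show σ (s⁻¹ ^ 3 * y) = (W⁄Qb).negY (s⁻¹ ^ 2 * σ x) (s⁻¹ ^ 3 * σ y)
      have h1 : (W⁄Qb).a₁ = 0 := by
        show algebraMap ℚ Qb W.a₁ = 0
        rw [ha₁, _root_.map_zero]
      have h3 : (W⁄Qb).a₃ = 0 := by
        show algebraMap ℚ Qb W.a₃ = 0
        rw [ha₃, _root_.map_zero]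
      rw [Affine.negY, h1, h3, map_mul, map_pow, map_inv₀, hσ]
      have hs0 := tw_sqrt_ne_zero d hd hs
      field_simp
      ring

end Fermat.Agent.ES12
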