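/-
Cluster E' (Mazur), S12 side, seat TW (helper22), part 1: the quadratic character of `√d` and
Minkowski.  If every inertia group (one place over each prime) fixes a square root `s` of a
rational number, then `s` is rational.
-/
import Mathlib
import Fermat.Agent.E.S12.Defs
import Fermat.Agent.Lib.Minkowski.Final
import Fermat.Agent.Lib.Minkowski.SubgroupForm

set_option autoImplicit false

noncomputable section

namespace Fermat.Agent.ES12

open IntermediateField

/-- a conjugate of a square root of a rational number is `± ` that root. -/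
theorem tw_smul_sqrt {s : Qb} {d : ℚ} (hs : s ^ 2 = algebraMap ℚ Qb d) (σ : GQ) :
    σ s = s ∨ σ s = -s := by
  have h : (σ s) ^ 2 = s ^ 2 := by
    rw [← map_pow, hs, AlgEquiv.commutes]
  exact sq_eq_sq_iff_eq_or_eq_neg.mp h

/-- the stabilizer of a square root of a rational number. -/
def twStab (s : Qb) : Subgroup GQ where
  carrier := {σ | σ s = s}
  one_mem' := rfl
  mul_mem' := by
    intro σ τ hσ hτ
    show σ (τ s) = s
    rw [hτ, hσ]
  inv_mem' := by
    intro σ hσ
    show σ⁻¹ s = s
    conv_lhs => rw [← hσ]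
    exact σ.symm_apply_apply s

theorem mem_twStab {s : Qb} {σ : GQ} : σ ∈ twStab s ↔ σ s = s := Iff.rfl

theorem twStab_normal {s : Qb} {d : ℚ} (hs : s ^ 2 = algebraMap ℚ Qb d) : (twStab s).Normal := by
  constructor
  intro σ hσ τ
  rw [mem_twStab] at hσ ⊢
  show τ (σ (τ⁻¹ s)) = s
  have key : σ (τ⁻¹ s) = τ⁻¹ s := by
    rcases tw_smul_sqrt hs τ⁻¹ with h | h
    · rw [h, hσ]
    · rw [h, map_neg, hσ]
  rw [key]
  exact τ.apply_symm_apply s

theorem twStab_isOpen (s : Qb) : IsOpen (twStab s : Set GQ) := by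
  have hint : IsIntegral ℚ s := (AlgebraicClosure.isAlgebraic ℚ).isIntegral.isIntegral s
  have : FiniteDimensional ℚ ℚ⟮s⟯ := adjoin.finiteDimensional hint
  have hopen : IsOpen ((ℚ⟮s⟯).fixingSubgroup : Set GQ) := fixingSubgroup_isOpen ℚ⟮s⟯
  refine Subgroup.isOpen_mono (H₁ := (ℚ⟮s⟯).fixingSubgroup) ?_ hopen
  intro σ hσ
  rw [mem_twStab]
  exact (IntermediateField.mem_fixingSubgroup_iff ℚ⟮s⟯ σ).mp hσ s (mem_adjoin_simple_self ℚ s)

/-- **Minkowski for a quadratic character**: if one inertia group over each prime fixes the square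
root `s` of a rational number, then `s` is rational. -/
theorem tw_sqrt_rational {s : Qb} {d : ℚ} (hs : s ^ 2 = algebraMap ℚ Qb d)
    (hunr : ∀ q : ℕ, q.Prime → ∃ A : ValuationSubring Qb,
      A.LiesOverPrime q ∧ ∀ σ ∈ A.inertiaSubgroupIn ℚ, σ s = s) :
    ∃ r : ℚ, algebraMap ℚ Qb r = s := by
  have htop : twStab s = ⊤ :=
    Fermat.Agent.Minkowski.minkowski_subgroup (twStab s) (twStab_normal hs) (twStab_isOpen s) hunr
  have hfix : ∀ σ : GQ, σ s = s := fun σ => by
    have : σ ∈ twStab s := by rw [htop]; exact Subgroup.mem_top σ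
    exact this
  have : Algebra.IsAlgebraic ℚ Qb := AlgebraicClosure.isAlgebraic ℚ
  have : IsAlgClosure ℚ Qb := ⟨inferInstance, inferInstance⟩
  have hGal : IsGalois ℚ Qb := inferInstance
  exact (InfiniteGalois.mem_range_algebraMap_iff_fixed s).mpr hfix

/-- a squarefree integer which is a square of a rational number is `1`. -/
theorem tw_eq_one_of_sq {d : ℤ} (hd : Squarefree d) {r : ℚ} (hr : r ^ 2 = (d : ℚ)) : d = 1 := by
  -- `r` is an integer
  have hint : IsIntegral ℤ r := by
    refine ⟨Polynomial.X ^ 2 - Polynomial.C d, Polynomial.monic_X_pow_sub_C d (by norm_num), ?_⟩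
    rw [Polynomial.eval₂_sub, Polynomial.eval₂_X_pow, Polynomial.eval₂_C, hr]
    simp
  obtain ⟨n, hn⟩ := IsIntegrallyClosed.isIntegral_iff.mp hint
  have hn' : (n : ℚ) = r := by simpa using hn
  have hd2 : d = n ^ 2 := by
    have : ((n ^ 2 : ℤ) : ℚ) = (d : ℚ) := by rw [← hr, ← hn']; push_cast; ring
    exact_mod_cast this.symm
  have hunit : IsUnit n := hd n (by rw [hd2, sq])
  rw [hd2]
  rcases Int.isUnit_iff.mp hunit with h | h <;> rw [h] <;> norm_num

end Fermat.Agent.ES12
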